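import Fermat.Agent.PrimeDivisors.Product
import Fermat.Agent.OpenImageAll.FrobeniusField

/-!
# Frobenius classes avoided at many primes at once, exceptional curves

If `a_q = 0` at the good primes inert in `ℚ(√d)`, let `Q` be the good primes `l ≥ 5` with `d` a
square modulo `l`. At such an `l` the curve is ordinary, and inertia has an element acting with
eigenvalues `δ, 1`, where `δ` generates the units, which is trivial modulo every other prime. Its
powers move any element of the image modulo a finite subset of `Q` through all values of one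
parameter at `l`, so a condition met by one value at each `l` fails at all of the subset for a
share at most `exp (- ∑ 1 / l)`.
-/

set_option autoImplicit false
set_option linter.style.haveILetI false
set_option linter.unusedSectionVars false

noncomputable section

open NumberField IsDedekindDomain Filter Topology Matrix WeierstrassCurve FA.EC FA.Frob FA.RT
  FA.RT.Tate
open FA.Ext (zN zN_nonneg primeIdeal)

local notation "Qb" => AlgebraicClosure ℚ
local notation "GQ" => AlgebraicClosure ℚ ≃ₐ[ℚ] AlgebraicClosure ℚ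
local notation "M2" k => Matrix (Fin 2) (Fin 2) k

namespace FA.PrimeDivisors

/-! ### Elements of a finite group avoiding translated conditions -/

/-- **The share avoiding conditions**, each met on every coset of the first powers of an element
which does not disturb the others. -/
theorem card_avoid_le_exp {ι G : Type*} [Group G] [Finite G] (P : ι → G → Prop) (n : ι → ℕ)
    (z : ι → G) (hz : ∀ i j g, i ≠ j → (P j (g * z i) ↔ P j g))
    (hit : ∀ i g, ∃ k < n i, P i (g * z i ^ k)) (J : Finset ι) :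
    (Nat.card {g : G // ∀ i ∈ J, ¬ P i g} : ℝ) ≤
      Real.exp (-∑ i ∈ J, (1 : ℝ) / n i) * Nat.card G := by
  classical
  induction J using Finset.induction with
  | empty =>
    simp only [Finset.notMem_empty, IsEmpty.forall_iff, implies_true, Finset.sum_empty, neg_zero,
      Real.exp_zero, one_mul]
    exact_mod_cast (Nat.card_congr (Equiv.subtypeUnivEquiv (fun _ : G => trivial))).le
  | @insert i J hiJ ih =>
    set A : Set G := {g | ∀ j ∈ J, ¬ P j g}
    set B : Set G := {g | ∀ j ∈ insert i J, ¬ P j g}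
    have hBA : B ⊆ A := fun g hg j hj => hg j (Finset.mem_insert_of_mem hj)
    have hpow : ∀ (k : ℕ) (j : ι) (g : G), i ≠ j → (P j (g * z i ^ k) ↔ P j g) := fun k => by
      induction k with
      | zero => simp
      | succ k ihk => intro j g hij; rw [pow_succ, ← mul_assoc, hz i j _ hij, ihk j g hij]
    choose k hk hP using hit i
    have hmem : ∀ g : A, g.1 * z i ^ k g.1 ∈ A \ B := fun g =>
      ⟨fun j hj h => g.2 j hj ((hpow _ j _ fun e => hiJ (e.symm ▸ hj)).mp h),
        fun h => h i (Finset.mem_insert_self i J) (hP g.1)⟩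
    have hle : Nat.card A ≤ Nat.card ↥(A \ B) * n i := by
      refine (Nat.card_le_card_of_injective
        (fun g : A => ((⟨_, hmem g⟩ : ↥(A \ B)), (⟨k g.1, hk g.1⟩ : Fin (n i)))) ?_).trans
        (le_of_eq (by rw [Nat.card_prod, Nat.card_fin]))
      intro g g' e
      simp only [Prod.mk.injEq, Subtype.mk.injEq, Fin.mk.injEq] at e
      exact Subtype.ext (mul_right_cancel (e.1.trans (by rw [e.2])))
    have hsum : Nat.card ↥(A \ B) + Nat.card B = Nat.card A := by
      rw [Nat.card_coe_set_eq, Nat.card_coe_set_eq, Nat.card_coe_set_eq]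
      exact Set.ncard_sdiff_add_ncard_of_subset hBA (Set.toFinite _)
    have hn : (0 : ℝ) < n i := by
      obtain ⟨c, hc, -⟩ := hit i 1
      exact_mod_cast (show 0 < n i by omega)
    have hleR : (Nat.card A : ℝ) ≤ Nat.card ↥(A \ B) * n i := by exact_mod_cast hle
    have hsumR : (Nat.card ↥(A \ B) : ℝ) + Nat.card B = Nat.card A := by exact_mod_cast hsum
    have hB : (Nat.card B : ℝ) ≤ (1 - 1 / (n i : ℝ)) * Nat.card A := by
      have h2 : (Nat.card A : ℝ) / n i ≤ Nat.card ↥(A \ B) := by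
        rw [div_le_iff₀ hn]
        exact hleR
      rw [sub_mul, one_mul, one_div_mul_eq_div]
      linarith
    show (Nat.card B : ℝ) ≤ _
    rw [Finset.sum_insert hiJ, neg_add, Real.exp_add, mul_assoc]
    refine hB.trans ((mul_le_mul_of_nonneg_right ?_ (Nat.cast_nonneg _)).trans
      (mul_le_mul_of_nonneg_left ih (Real.exp_pos _).le))
    have := Real.add_one_le_exp (-(1 / (n i : ℝ)))
    linarith

/-! ### A set of positive density has norms with divergent sum of reciprocals -/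

/-- A prime of `ℚ` is determined by its norm. -/
theorem absNorm_injective :
    Function.Injective fun v : HeightOneSpectrum (𝓞 ℚ) => Ideal.absNorm v.asIdeal := by
  intro v w (h : Ideal.absNorm v.asIdeal = Ideal.absNorm w.asIdeal)
  have hq := FA.Chebotarev.absNorm_prime v
  set q := Ideal.absNorm v.asIdeal
  have h1 : Ideal.absNorm (Ideal.span {(q : 𝓞 ℚ)}) = q := by
    rw [Ideal.absNorm_span_singleton, show (q : 𝓞 ℚ) = algebraMap ℤ (𝓞 ℚ) q by simp,
      Algebra.norm_algebraMap]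
    simp [RingOfIntegers.rank]
  haveI hP : (Ideal.span {(q : 𝓞 ℚ)}).IsPrime :=
    Ideal.isPrime_of_irreducible_absNorm (by rw [h1]; exact hq)
  have hmax : (Ideal.span {(q : 𝓞 ℚ)}).IsMaximal := hP.isMaximal fun e => hq.ne_zero (by
    rw [← h1, e, Ideal.absNorm_bot])
  have key : ∀ x : HeightOneSpectrum (𝓞 ℚ), Ideal.absNorm x.asIdeal = q →
      Ideal.span {(q : 𝓞 ℚ)} = x.asIdeal := fun x hx =>
    hmax.eq_of_le x.isPrime.ne_top
      ((Ideal.span_singleton_le_iff_mem _).mpr (hx ▸ Ideal.absNorm_mem x.asIdeal))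
  exact HeightOneSpectrum.ext ((key v rfl).symm.trans (key w h.symm))

/-- **A set of norms with convergent sum of reciprocals has density zero.** -/
theorem density_zero_of_summable {Q : Set ℕ}
    (hsum : Summable (Q.indicator fun n : ℕ => (1 : ℝ) / n)) :
    {v : HeightOneSpectrum (𝓞 ℚ) | Ideal.absNorm v.asIdeal ∈ Q}.HasDirichletDensity 0 := by
  set T : Set (HeightOneSpectrum (𝓞 ℚ)) := {v | Ideal.absNorm v.asIdeal ∈ Q}
  have hbound : ∀ s : ℝ, 1 < s →
      T.primeIdealZetaSum s ≤ ∑' n, Q.indicator (fun n : ℕ => (1 : ℝ) / n) n := fun s hs => by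
    rw [FA.Chebotarev.primeIdealZetaSum_eq]
    refine (FA.Chebotarev.summable_subtype_zN T hs).tsum_le_tsum_of_inj
      (fun v : T => Ideal.absNorm v.1.asIdeal)
      (fun a b e => Subtype.ext (absNorm_injective e))
      (fun n _ => Set.indicator_nonneg (fun _ _ => by positivity) n) (fun v => ?_) hsum
    rw [Set.indicator_of_mem (show Ideal.absNorm v.1.asIdeal ∈ Q from v.2), FA.Ext.zN_primeIdeal,
      one_div, ← Real.rpow_neg_one]
    exact Real.rpow_le_rpow_of_exponent_le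
      (by exact_mod_cast (FA.Chebotarev.absNorm_prime v.1).one_le) (by linarith)
  refine tendsto_order.mpr ⟨fun b hb => Eventually.of_forall fun s => hb.trans_le
    (div_nonneg (T.primeIdealZetaSum_nonneg s) (Set.univ.primeIdealZetaSum_nonneg s)),
    fun b hb => ?_⟩
  set C := ∑' n, Q.indicator (fun n : ℕ => (1 : ℝ) / n) n
  filter_upwards [self_mem_nhdsWithin,
    FA.Supersingular.tendsto_univ_atTop.eventually_gt_atTop (max 0 (C / b))] with s hs hU
  have hU0 := (le_max_left _ _).trans_lt hU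
  rw [div_lt_iff₀ hU0]
  have := (le_max_right _ _).trans_lt hU
  rw [div_lt_iff₀ hb] at this
  linarith [hbound s hs]

/-- **A set of nonzero density has norms with divergent sum of reciprocals.** -/
theorem not_summable_of_density {S : Set (HeightOneSpectrum (𝓞 ℚ))} {δ : ℝ}
    (hS : S.HasDirichletDensity δ) (h0 : δ ≠ 0) {Q : Set ℕ} {F : Set (HeightOneSpectrum (𝓞 ℚ))}
    (hF : F.Finite) (hQ : ∀ v ∈ S, v ∈ F ∨ Ideal.absNorm v.asIdeal ∈ Q) :
    ¬ Summable (Q.indicator fun n : ℕ => (1 : ℝ) / n) := by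
  intro hsum
  exact h0 (tendsto_nhds_unique hS (FA.Supersingular.density_zero_of_approx fun ε hε =>
    ⟨_, F, 0, density_zero_of_summable hsum, hε, hF, fun v hv => (hQ v hv).symm⟩))

/-! ### The ordinary primes of an exceptional curve -/

/-- The traces of the powers of a matrix with eigenvalues `δ` and `1`. -/
theorem trace_pow_of_trace_eq {k : Type*} [Field k] {S : M2 k} {δ : k} (ht : S.trace = δ + 1)
    (hd : S.det = δ) : ∀ n : ℕ, (S ^ n).trace = δ ^ n + 1 := by
  suffices ∀ n : ℕ, (S ^ n).trace = δ ^ n + 1 ∧ (S ^ (n + 1)).trace = δ ^ (n + 1) + 1 from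
    fun n => (this n).1
  intro n
  induction n with
  | zero => exact ⟨by simp [one_add_one_eq_two], by simpa using ht⟩
  | succ n ih =>
    refine ⟨ih.2, ?_⟩
    rw [pow_succ, pow_succ, mul_assoc, FA.LocalDef.mul_self_two, ht, hd, mul_sub, mul_smul_comm,
      mul_smul_comm, mul_one, ← pow_succ, trace_sub, trace_smul, trace_smul, ih.1, ih.2,
      smul_eq_mul, smul_eq_mul]
    ring

variable {W : WeierstrassCurve ℤ} [(ratCurve W).IsElliptic] {d : ℤ}

/-- Where `d` is a square, so are the discriminants of the image with nonzero trace. -/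
theorem isSquare_disc (hd : Squarefree d) (hd1 : d ≠ 1)
    (h0 : FA.Supersingular.InertVanish W d) {l : ℕ} [Fact l.Prime]
    (hsq : IsSquare (d : ZMod l)) {σ : GQ} (hσ : (curveRep l W σ).trace ≠ 0) :
    IsSquare ((curveRep l W σ).trace ^ 2 - 4 * (curveRep l W σ).det) := by
  classical
  have hΔ : W.Δ ≠ 0 := fun h => (ratCurve W).isUnit_Δ.ne_zero (by simp [ratCurve, h])
  by_contra hne
  obtain ⟨q, hq, hqS, hF⟩ := FA.OpenImageAll.exists_frobenius_mem_of_mem
    (curveRep l W).toHomUnits (FA.OpenImageAll.isOpen_ker_toHomUnits l)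
    (X := {g | (g : M2 (ZMod l)).trace ≠ 0 ∧
      ¬ IsSquare ((g : M2 (ZMod l)).trace ^ 2 - 4 * (g : M2 (ZMod l)).det)})
    (fun g hg x => by
      show _ ∧ _
      rw [Units.val_mul, Units.val_mul, Matrix.trace_units_conj, Matrix.det_units_conj]
      exact hg) (σ := σ) ⟨hσ, hne⟩ (insert l W.Δ.natAbs.primeFactors)
  simp only [Finset.mem_insert, not_or] at hqS
  have hgood : W.IsGoodPrimeFor q := fun h => hqS.2 (Nat.mem_primeFactors.mpr
    ⟨hq, Int.natCast_dvd.mp h, Int.natAbs_ne_zero.mpr hΔ⟩)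
  obtain ⟨A, hA⟩ := FA.Deform.exists_liesOverPrime hq
  obtain ⟨F, hFr⟩ := FA.Deform.exists_isFrobeniusAt hq hA
  obtain ⟨ht, hdt⟩ := FA.Ribet.curveRep_frobenius (p := l) hq hqS.1 hgood hA hFr
  obtain ⟨h1, h2⟩ : (curveRep l W F).trace ≠ 0 ∧
      ¬ IsSquare ((curveRep l W F).trace ^ 2 - 4 * (curveRep l W F).det) := hF A hA F hFr
  obtain ⟨b, hb⟩ := FA.Exceptional.exists_disc_eq hd hd1 h0 hq hgood
    fun e => h1 (by rw [ht, e, Int.cast_zero])
  refine h2 ?_
  have e := congrArg (Int.cast (R := ZMod l)) hb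
  push_cast at e
  rw [ht, hdt, e]
  exact hsq.mul ⟨(b : ZMod l), sq _⟩

/-- **The curve is ordinary where `d` is a square.** -/
theorem isOrdType_of_isSquare (hd : Squarefree d) (hd1 : d ≠ 1)
    (h0 : FA.Supersingular.InertVanish W d) {l : ℕ} [hl : Fact l.Prime] (hl2 : l ≠ 2)
    (hgood : W.IsGoodPrimeFor l) (hsq : IsSquare (d : ZMod l)) {A : ValuationSubring Qb}
    (hA : A.LiesOverPrime l) : FA.LocalDef.IsOrdType A (curveRep l W) := by
  classical
  rcases FA.LocalDef.flat_residual_type hA hl2 (detOmega_curveRep W A)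
    (isFlatRes_curveRep W hA hgood) with h | hss
  · exact h
  exfalso
  obtain ⟨Λ, -, -, -, g₀, -, -, hord, t, e, ht, he, heq⟩ := hss
  have := FA.LocalDef.res_charP hl.out hA
  let f : ZMod l →+* FA.LocalDef.Res A := ZMod.castHom (dvd_refl l) (FA.LocalDef.Res A)
  set ν := Λ.chi0 g₀
  have h2z : (2 : ZMod l) ≠ 0 := fun h => hl2 ((Nat.prime_dvd_prime_iff_eq hl.out Nat.prime_two).mp
    ((ZMod.natCast_eq_zero_iff 2 l).mp (by exact_mod_cast h)))
  have hν : ν * ν - f (t : ZMod l) * ν + f (e : ZMod l) = 0 := by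
    rw [map_natCast, map_natCast]
    exact heq
  obtain ⟨c, hc⟩ : ∃ c : ZMod l, ν * ν = f c := by
    by_cases ht0 : (t : ZMod l) = 0
    · rw [ht0, map_zero, zero_mul, sub_zero] at hν
      exact ⟨-(e : ZMod l), by rw [map_neg]; linear_combination hν⟩
    · obtain ⟨w, hw⟩ := isSquare_disc hd hd1 h0 hsq (σ := g₀) (by rwa [ht])
      rw [ht, he] at hw
      have hf2 : f 2 ≠ 0 := fun h => h2z (f.injective (by rw [h, map_zero]))
      have h4 : (f 2 * ν - f (t : ZMod l)) ^ 2 = f w ^ 2 := by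
        rw [← map_pow, sq w, ← hw]
        simp only [map_sub, map_mul, map_pow, map_ofNat]
        linear_combination 4 * hν
      obtain ⟨c, hc⟩ : ∃ c : ZMod l, ν = f c := by
        rcases sq_eq_sq_iff_eq_or_eq_neg.mp h4 with h | h
        · refine ⟨((t : ZMod l) + w) / 2, ?_⟩
          rw [map_div₀, map_add, eq_div_iff hf2]
          linear_combination h
        · refine ⟨((t : ZMod l) - w) / 2, ?_⟩
          rw [map_div₀, map_sub, eq_div_iff hf2]
          linear_combination h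
      exact ⟨c * c, by rw [hc, map_mul]⟩
  have hl2' := hl.out.two_le
  have hν0 : ν ≠ 0 := fun h => by
    rw [h, orderOf_zero] at hord
    have : 2 ^ 2 ≤ l ^ 2 := Nat.pow_le_pow_left hl2' 2
    omega
  have hc0 : c ≠ 0 := fun h => mul_ne_zero hν0 hν0 (by rw [hc, h, map_zero])
  have h1 : ν ^ (2 * (l - 1)) = 1 := by
    rw [pow_mul, sq, hc, ← map_pow, ZMod.pow_card_sub_one_eq_one hc0, map_one]
  have h2 := orderOf_dvd_of_pow_eq_one h1
  rw [hord] at h2
  have h3 := Nat.le_of_dvd (by omega) h2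
  have h6 : 2 * l ≤ l ^ 2 := by rw [sq]; exact Nat.mul_le_mul_right l hl2'
  omega

/-- **An element of inertia with eigenvalues `δ` and `1`**, where `δ` generates the units. -/
theorem exists_inertia_split (hd : Squarefree d) (hd1 : d ≠ 1)
    (h0 : FA.Supersingular.InertVanish W d) {l : ℕ} [hl : Fact l.Prime] (hl2 : l ≠ 2)
    (hgood : W.IsGoodPrimeFor l) (hsq : IsSquare (d : ZMod l)) {A : ValuationSubring Qb}
    (hA : A.LiesOverPrime l) :
    ∃ σ₀ ∈ A.inertiaSubgroupIn ℚ, ∃ δ : (ZMod l)ˣ, orderOf δ = l - 1 ∧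
      (curveRep l W σ₀).trace = δ + 1 ∧ (curveRep l W σ₀).det = δ := by
  obtain ⟨g, hg⟩ := IsCyclic.exists_generator (α := (ZMod l)ˣ)
  have hgo : orderOf g = l - 1 := by
    rw [orderOf_eq_card_of_forall_mem_zpowers hg, Nat.card_eq_fintype_card, ZMod.card_units]
  obtain ⟨ζ, hζ⟩ := HasEnoughRootsOfUnity.exists_primitiveRoot Qb l
  have hm : ¬ l ∣ (g : ZMod l).val := fun h => g.ne_zero (by
    rw [← ZMod.natCast_zmod_val (g : ZMod l), ZMod.natCast_eq_zero_iff]; exact h)
  obtain ⟨σ₀, hσ₀, hσζ⟩ := FA.LocalDef.exists_inertia_zeta hl.out hA hζ hm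
  have hdet : (curveRep l W σ₀).det = (g : ZMod l) := by
    rw [det_curveRep W σ₀ (g : ZMod l).val fun μ hμ => ?_, ZMod.natCast_zmod_val]
    obtain ⟨i, -, rfl⟩ := hζ.eq_pow_of_pow_eq_one hμ
    rw [map_pow, hσζ, ← pow_mul, ← pow_mul, mul_comm]
  obtain ⟨v, -, -, hI⟩ := isOrdType_of_isSquare hd hd1 h0 hl2 hgood hsq hA
  obtain ⟨s₀, e0⟩ := hI σ₀ hσ₀ (Pi.single 0 1)
  obtain ⟨s₁, e1⟩ := hI σ₀ hσ₀ (Pi.single 1 1)
  set S := curveRep l W σ₀
  have a00 : S 0 0 = 1 + s₀ * v 0 := by simpa [sub_eq_iff_eq_add'] using congrFun e0 0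
  have a10 : S 1 0 = s₀ * v 1 := by simpa using congrFun e0 1
  have a01 : S 0 1 = s₁ * v 0 := by simpa using congrFun e1 0
  have a11 : S 1 1 = 1 + s₁ * v 1 := by simpa [sub_eq_iff_eq_add'] using congrFun e1 1
  refine ⟨σ₀, hσ₀, g, hgo, ?_, hdet⟩
  show S.trace = _
  rw [← hdet, trace_fin_two, det_fin_two, a00, a01, a10, a11]
  ring

/-- **Hitting a condition on a coset of the powers of the element.** -/
theorem exists_pow_hit (hd : Squarefree d) (h0 : FA.Supersingular.InertVanish W d) {s : Qb}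
    {H : Subgroup GQ} (hs : s ^ 2 = (d : Qb)) (hH : H.index = 2) (hopen : IsOpen (H : Set GQ))
    (hfix : ∀ σ, σ ∈ H ↔ σ s = s) {l : ℕ} [hl : Fact l.Prime] (h5 : 5 ≤ l)
    (R : ZMod l → ZMod l → Prop)
    (hR : ∀ α β : ZMod l, α ≠ 0 → β ≠ 0 → ∃ y ≠ 0, R (α * y + β) (α * β * y))
    (hR' : ∀ D : ZMod l, D ≠ 0 → ∃ y ≠ 0, R 0 (D * y))
    {σ₀ : GQ} {δ : (ZMod l)ˣ} (hδ : orderOf δ = l - 1)
    (htS : (curveRep l W σ₀).trace = δ + 1) (hdS : (curveRep l W σ₀).det = δ) (σ : GQ) :
    ∃ k < l, R (curveRep l W (σ * σ₀ ^ k)).trace (curveRep l W (σ * σ₀ ^ k)).det := by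
  classical
  set S := curveRep l W σ₀
  set M := curveRep l W σ
  have hδ1 : δ ≠ 1 := fun h => by rw [h, orderOf_one] at hδ; omega
  have hδn : (δ : ZMod l) ≠ -1 := fun h => by
    have h2 : δ ^ 2 = 1 := Units.ext (by
      rw [Units.val_pow_eq_pow_val, h, neg_one_sq, Units.val_one])
    have := Nat.le_of_dvd two_pos (hδ ▸ orderOf_dvd_of_pow_eq_one h2)
    omega
  have htr0 : ∀ g ∉ H, (curveRep l W g).trace = 0 := fun g hg =>
    FA.Supersingular.trace_eq_zero_of_not_mem hd h0 hs hH hopen hfix l hg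
  have hσ₀H : σ₀ ∈ H := by
    by_contra hn
    exact hδn (eq_neg_of_add_eq_zero_left (htS.symm.trans (htr0 _ hn)))
  have hpow : ∀ y : ZMod l, y ≠ 0 → ∃ k < l, (δ : ZMod l) ^ k = y := fun y hy => by
    have hgen : Subgroup.zpowers δ = ⊤ := Subgroup.eq_top_of_card_eq _ (by
      rw [Nat.card_zpowers, hδ, Nat.card_eq_fintype_card, ZMod.card_units])
    obtain ⟨k, hk⟩ : Units.mk0 y hy ∈ Submonoid.powers δ :=
      mem_powers_iff_mem_zpowers.mpr (hgen ▸ Subgroup.mem_top _)
    refine ⟨k % orderOf δ, (Nat.mod_lt _ (by omega)).trans_le (by omega), ?_⟩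
    rw [← Units.val_pow_eq_pow_val, pow_mod_orderOf]
    exact congrArg Units.val hk
  have hdet : ∀ k : ℕ, (curveRep l W (σ * σ₀ ^ k)).det = M.det * (δ : ZMod l) ^ k := fun k => by
    rw [map_mul, map_pow, det_mul, det_pow, hdS]
  have hM0 : M.det ≠ 0 := FA.Supersingular.det_rep_ne_zero (curveRep l W) σ
  by_cases hσ : σ ∈ H
  · have hns : ∀ a : ZMod l, S ≠ a • 1 := fun a e => hδ1 (Units.ext (sub_eq_zero.mp
      (mul_self_eq_zero.mp (show ((δ : ZMod l) - 1) * ((δ : ZMod l) - 1) = 0 by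
        have h1 := htS
        have h2 := hdS
        rw [e] at h1 h2
        simp [pow_two] at h1 h2
        linear_combination -((δ : ZMod l) + 1 + (a + a)) * h1 + 4 * h2))))
    obtain ⟨B⟩ := exists_tateBasis (p := l) W
    have hc : M * S = S * M := by
      have e := congrArg (fun N => N.map PadicInt.toZMod)
        (FA.Exceptional.rep_mul_comm hd.ne_zero hs hH hopen hfix h0 B hσ hσ₀H)
      simpa only [Matrix.map_mul, FA.PadicImage.rep_map_toZMod] using e
    obtain ⟨a, b, hab⟩ := FA.Exceptional.exists_eq_add_of_commute hns hc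
    have htrk : ∀ k : ℕ, (curveRep l W (σ * σ₀ ^ k)).trace =
        (a * δ + b) * (δ : ZMod l) ^ k + (a + b) := fun k => by
      rw [map_mul, map_pow]
      show (M * S ^ k).trace = _
      rw [hab, add_mul, smul_mul_assoc, smul_mul_assoc, one_mul, ← pow_succ',
        trace_add, trace_smul, trace_smul, trace_pow_of_trace_eq htS hdS,
        trace_pow_of_trace_eq htS hdS, smul_eq_mul, smul_eq_mul]
      ring
    have hdetM : M.det = (a * δ + b) * (a + b) := by
      rw [trace_fin_two] at htS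
      rw [det_fin_two] at hdS
      rw [hab, det_fin_two]
      simp only [Matrix.add_apply, Matrix.smul_apply, smul_eq_mul, Matrix.one_apply_eq,
        Matrix.one_apply_ne (show (0 : Fin 2) ≠ 1 by decide),
        Matrix.one_apply_ne (show (1 : Fin 2) ≠ 0 by decide), mul_one, mul_zero, add_zero]
      linear_combination a * b * htS + a ^ 2 * hdS
    rw [hdetM] at hM0
    obtain ⟨y, hy, hyR⟩ := hR _ _ (left_ne_zero_of_mul hM0) (right_ne_zero_of_mul hM0)
    obtain ⟨k, hk, hky⟩ := hpow y hy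
    refine ⟨k, hk, ?_⟩
    rw [htrk, hdet, hdetM, hky]
    exact hyR
  · obtain ⟨y, hy, hyR⟩ := hR' _ hM0
    obtain ⟨k, hk, hky⟩ := hpow y hy
    refine ⟨k, hk, ?_⟩
    rw [htr0 _ fun h => hσ ((H.mul_mem_cancel_right (H.pow_mem hσ₀H k)).mp h), hdet, hky]
    exact hyR

/-- The image modulo each of the primes at once. -/
def unitsRep (L : Finset ℕ) [∀ l : L, Fact (l : ℕ).Prime] :
    GQ →* ∀ l : L, (M2 (ZMod (l : ℕ)))ˣ :=
  MonoidHom.pi fun l => (curveRep (l : ℕ) W).toHomUnits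

theorem isOpen_ker_unitsRep (L : Finset ℕ) [∀ l : L, Fact (l : ℕ).Prime] :
    IsOpen ((unitsRep (W := W) L).ker : Set GQ) := by
  have e : ((unitsRep (W := W) L).ker : Set GQ) =
      ⋂ l : L, ((curveRep (l : ℕ) W).toHomUnits.ker : Set GQ) := by
    ext σ
    simp only [Set.mem_iInter, SetLike.mem_coe, MonoidHom.mem_ker, unitsRep, funext_iff,
      MonoidHom.pi_apply, Pi.one_apply]
  rw [e]
  exact isOpen_iInter_of_finite fun l => FA.OpenImageAll.isOpen_ker_toHomUnits _

/-- **Avoiding conditions at a finite set of such primes has small density.** -/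
theorem exists_avoid_density_le (hd : Squarefree d) (hd1 : d ≠ 1)
    (h0 : FA.Supersingular.InertVanish W d) (R : ∀ l : ℕ, ZMod l → ZMod l → Prop)
    (hR : ∀ l : ℕ, l.Prime → ∀ α β : ZMod l, α ≠ 0 → β ≠ 0 →
      ∃ y ≠ 0, R l (α * y + β) (α * β * y))
    (hR' : ∀ l : ℕ, l.Prime → ∀ D : ZMod l, D ≠ 0 → ∃ y ≠ 0, R l 0 (D * y))
    (D : ℕ → ℕ → Prop)
    (hD : ∀ l q : ℕ, l.Prime → q.Prime → l ≠ q → W.IsGoodPrimeFor q →
      R l (W.apOfModel q : ZMod l) (q : ZMod l) → D l q)
    (L : Finset ℕ)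
    (hL : ∀ l ∈ L, l.Prime ∧ 5 ≤ l ∧ W.IsGoodPrimeFor l ∧ IsSquare (d : ZMod l)) :
    ∃ (X F : Set (HeightOneSpectrum (𝓞 ℚ))) (δ : ℝ), X.HasDirichletDensity δ ∧
      δ ≤ Real.exp (-∑ l ∈ L, (1 : ℝ) / l) ∧ F.Finite ∧
      {v | ∀ l ∈ L, ¬ D l (Ideal.absNorm v.asIdeal)} ⊆ X ∪ F := by
  classical
  haveI : ∀ l : L, Fact (l : ℕ).Prime := fun l => ⟨(hL l l.2).1⟩
  have hΔ : W.Δ ≠ 0 := fun h => (ratCurve W).isUnit_Δ.ne_zero (by simp [ratCurve, h])
  obtain ⟨s, H, hs, hH, hopen, hfix⟩ := FA.OpenImageAll.exists_index_two_of_sqrt hd hd1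
  choose A hA using fun l : L => FA.Deform.exists_liesOverPrime (hL l l.2).1
  choose σ₀ hσ₀ δ hδ htS hdS using fun l : L =>
    exists_inertia_split (W := W) hd hd1 h0 (l := (l : ℕ))
      (by have := (hL l l.2).2.1; omega) (hL l l.2).2.2.1 (hL l l.2).2.2.2 (hA l)
  set f := unitsRep (W := W) L
  haveI : Fintype f.range := Fintype.ofFinite _
  let P : L → f.range → Prop := fun l g =>
    R (l : ℕ) (g.1 l : M2 (ZMod (l : ℕ))).trace (g.1 l : M2 (ZMod (l : ℕ))).det
  let z : L → f.range := fun l => f.rangeRestrict (σ₀ l)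
  have hval : ∀ (g : GQ) (l : L), ((f g l : (M2 (ZMod (l : ℕ)))ˣ) : M2 (ZMod (l : ℕ))) =
      curveRep (l : ℕ) W g := fun g l => rfl
  have hz : ∀ i j g, i ≠ j → (P j (g * z i) ↔ P j g) := fun i j g hij => by
    have e : (g * z i).1 j = g.1 j := by
      show g.1 j * f (σ₀ i) j = g.1 j
      rw [Units.ext_iff, Units.val_mul, hval, curveRep_unramified W (hL i i.2).1
        (fun e => hij (Subtype.ext e)) (hL i i.2).2.2.1 (hA i) (hσ₀ i), mul_one]
    simp only [P, e]
  have hit : ∀ (i : L) (g : f.range), ∃ k < (i : ℕ), P i (g * z i ^ k) := by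
    rintro i ⟨_, σ, rfl⟩
    obtain ⟨k, hk, hk'⟩ := exists_pow_hit hd h0 hs hH hopen hfix (hL i i.2).2.1 (R i)
      (hR i (hL i i.2).1) (hR' i (hL i i.2).1) (hδ i) (htS i) (hdS i) σ
    refine ⟨k, hk, ?_⟩
    show R (i : ℕ) _ _
    rw [show ((⟨f σ, σ, rfl⟩ : f.range) * z i ^ k).1 = f (σ * σ₀ i ^ k) by
      rw [map_mul, map_pow]; rfl, hval]
    exact hk'
  have hdens := FA.Chebotarev.hasDirichletDensity_frobSet f.rangeRestrict
    f.rangeRestrict_surjective (by rw [MonoidHom.ker_rangeRestrict]; exact isOpen_ker_unitsRep L)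
    (X := {g : f.range | ∀ i ∈ (Finset.univ : Finset L), ¬ P i g}) fun g hg x i hi => by
      show ¬ R (i : ℕ) ((x.1 i * g.1 i * (x.1 i)⁻¹ : (M2 (ZMod (i : ℕ)))ˣ) : M2 _).trace
        ((x.1 i * g.1 i * (x.1 i)⁻¹ : (M2 (ZMod (i : ℕ)))ˣ) : M2 _).det
      rw [Units.val_mul, Units.val_mul, Matrix.trace_units_conj, Matrix.det_units_conj]
      exact hg i hi
  refine ⟨_, {v | Ideal.absNorm v.asIdeal ∈ L ∪ W.Δ.natAbs.primeFactors}, _, hdens, ?_,
    FA.Supersingular.finite_absNorm_mem _,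
    fun v hv => or_iff_not_imp_right.mpr fun hvF B hB σ hσ i _ => ?_⟩
  · rw [← Nat.card_eq_fintype_card, div_le_iff₀ (by exact_mod_cast Nat.card_pos)]
    have h := card_avoid_le_exp P (fun i : L => (i : ℕ)) z hz hit Finset.univ
    rwa [Finset.sum_coe_sort L fun l => (1 : ℝ) / l] at h
  simp only [Set.mem_ofPred_eq, Finset.mem_union, not_or] at hvF
  set q := Ideal.absNorm v.asIdeal
  have hq : q.Prime := FA.Chebotarev.absNorm_prime v
  have hgood : W.IsGoodPrimeFor q := fun h => hvF.2 (Nat.mem_primeFactors.mpr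
    ⟨hq, Int.natCast_dvd.mp h, Int.natAbs_ne_zero.mpr hΔ⟩)
  have hne : (i : ℕ) ≠ q := fun e => hvF.1 (e ▸ i.2)
  show ¬ R (i : ℕ) (curveRep (i : ℕ) W σ).trace (curveRep (i : ℕ) W σ).det
  obtain ⟨ht, hdt⟩ := FA.Ribet.curveRep_frobenius (W := W) (p := (i : ℕ)) hq hne.symm hgood hB hσ
  rw [ht, hdt]
  exact fun h => hv i i.2 (hD _ q (hL i i.2).1 hq hne hgood h)

/-- The primes of the theorem have divergent sum of reciprocals. -/
theorem not_summable_isSquare (hd : Squarefree d) (hd1 : d ≠ 1)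
    (h0 : FA.Supersingular.InertVanish W d) :
    ¬ Summable ({l : ℕ | l.Prime ∧ 5 ≤ l ∧ W.IsGoodPrimeFor l ∧ IsSquare (d : ZMod l)}.indicator
      fun n : ℕ => (1 : ℝ) / n) := by
  classical
  have hΔ : W.Δ ≠ 0 := fun h => (ratCurve W).isUnit_Δ.ne_zero (by simp [ratCurve, h])
  refine not_summable_of_density
    (FA.Supersingular.hasDirichletDensity_compl
      (FA.Supersingular.density_half_of_inertVanish hd hd1 h0)) (by norm_num)
    (FA.Supersingular.finite_absNorm_mem (insert 2 (insert 3 W.Δ.natAbs.primeFactors)))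
    fun v hv => ?_
  refine or_iff_not_imp_left.mpr fun hvF => ?_
  simp only [Set.mem_ofPred_eq, Finset.mem_insert, not_or] at hvF
  have hq := FA.Chebotarev.absNorm_prime v
  have hgood : W.IsGoodPrimeFor (Ideal.absNorm v.asIdeal) := fun h => hvF.2.2
    (Nat.mem_primeFactors.mpr ⟨hq, Int.natCast_dvd.mp h, Int.natAbs_ne_zero.mpr hΔ⟩)
  refine ⟨hq, hq.five_le_of_ne_two_of_ne_three hvF.1 hvF.2.1, hgood, ?_⟩
  by_contra hns
  exact hv (h0 _ hq hgood hns)

/-- **Almost every prime meets the condition at `k` of the primes where `d` is a square.** -/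
theorem density_zero_lt_exceptional (hd : Squarefree d) (hd1 : d ≠ 1)
    (h0 : FA.Supersingular.InertVanish W d) (R : ∀ l : ℕ, ZMod l → ZMod l → Prop)
    (hR : ∀ l : ℕ, l.Prime → ∀ α β : ZMod l, α ≠ 0 → β ≠ 0 →
      ∃ y ≠ 0, R l (α * y + β) (α * β * y))
    (hR' : ∀ l : ℕ, l.Prime → ∀ D : ZMod l, D ≠ 0 → ∃ y ≠ 0, R l 0 (D * y))
    (D : ℕ → ℕ → Prop)
    (hD : ∀ l q : ℕ, l.Prime → q.Prime → l ≠ q → W.IsGoodPrimeFor q →
      R l (W.apOfModel q : ZMod l) (q : ZMod l) → D l q) (k : ℕ) :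
    {v : HeightOneSpectrum (𝓞 ℚ) | ¬ ∃ S : Finset ℕ, (∀ l ∈ S, l.Prime) ∧ k ≤ S.card ∧
      ∀ l ∈ S, D l (Ideal.absNorm v.asIdeal)}.HasDirichletDensity 0 :=
  density_zero_subset (T := {v | ¬ ∃ S : Finset ℕ, (S : Set ℕ) ⊆
      {l : ℕ | l.Prime ∧ 5 ≤ l ∧ W.IsGoodPrimeFor l ∧ IsSquare (d : ZMod l)} ∧ k ≤ S.card ∧
      ∀ l ∈ S, D l (Ideal.absNorm v.asIdeal)})
    (fun _ hv ⟨S, hS, hk, hSD⟩ => hv ⟨S, fun _ hl => (hS hl).1, hk, hSD⟩)
    (density_zero_lt_of_bound D _
      (fun L hL => exists_avoid_density_le hd hd1 h0 R hR hR' D hD L fun _ hl => hL hl)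
      k _ subset_rfl (not_summable_isSquare hd hd1 h0))

end FA.PrimeDivisors

end
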