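import Fermat.Agent.Root.SummarySupersingularDensity
import Fermat.Agent.Root.SummaryTraceDistribution
import Mathlib.Analysis.SpecialFunctions.Exp

/-!
# Frobenius classes avoided at many primes at once

If Galois induces every automorphism of `E[N]` for all `N` prime to `m`, the image modulo a finite
set `L` of primes not dividing `m` is the product of the `GL₂(𝔽_l)`. A condition met by a share at
least `1 / l` of each factor fails at all of `L` for a share at most `exp (- ∑ 1 / l)`, so for a set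
of primes with divergent sum of reciprocals almost every Frobenius meets it at any given number of
them.
-/

set_option autoImplicit false
set_option linter.style.haveILetI false
set_option linter.unusedSectionVars false

noncomputable section

open NumberField IsDedekindDomain Filter Topology Matrix WeierstrassCurve FA.Frob
open FA.Ext (zN zN_nonneg primeIdeal)
open scoped WeierstrassCurve.Affine

local notation "Qb" => AlgebraicClosure ℚ
local notation "GQ" => AlgebraicClosure ℚ ≃ₐ[ℚ] AlgebraicClosure ℚ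

namespace FA.PrimeDivisors

/-! ### Densities -/

/-- The sums are subadditive. -/
theorem primeIdealZetaSum_union_le (A B : Set (HeightOneSpectrum (𝓞 ℚ))) {s : ℝ} (hs : 1 < s) :
    (A ∪ B).primeIdealZetaSum s ≤ A.primeIdealZetaSum s + B.primeIdealZetaSum s := by
  simp only [FA.Chebotarev.primeIdealZetaSum_eq]
  rw [show A ∪ B = A ∪ (B \ A) from Set.union_sdiff_self.symm,
    Summable.tsum_union_disjoint (f := fun v : HeightOneSpectrum (𝓞 ℚ) => zN s (primeIdeal v))
      disjoint_sdiff_self_right (FA.Chebotarev.summable_subtype_zN A hs)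
      (FA.Chebotarev.summable_subtype_zN _ hs)]
  refine add_le_add le_rfl ?_
  exact (FA.Chebotarev.summable_subtype_zN _ hs).tsum_le_tsum_of_inj
    (Set.inclusion Set.sdiff_subset) (Set.inclusion_injective _) (fun _ _ => zN_nonneg _ _)
    (fun _ => le_rfl)
    (FA.Chebotarev.summable_subtype_zN _ hs)

/-- A set inside the union of a set of small density and a set of density zero, up to finitely
many primes, for every bound, has density zero. -/
theorem density_zero_of_approx_union {S : Set (HeightOneSpectrum (𝓞 ℚ))}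
    (h : ∀ ε : ℝ, 0 < ε → ∃ (X Z F : Set (HeightOneSpectrum (𝓞 ℚ))) (δ : ℝ),
      X.HasDirichletDensity δ ∧ δ < ε ∧ Z.HasDirichletDensity 0 ∧ F.Finite ∧ S ⊆ X ∪ Z ∪ F) :
    S.HasDirichletDensity 0 := by
  refine tendsto_order.mpr ⟨fun b hb => Eventually.of_forall fun s => hb.trans_le
    (div_nonneg (S.primeIdealZetaSum_nonneg s) (Set.univ.primeIdealZetaSum_nonneg s)),
    fun ε hε => ?_⟩
  obtain ⟨X, Z, F, δ, hX, hδ, hZ, hF, hSX⟩ := h (ε / 3) (by linarith)
  filter_upwards [hX.eventually_lt_const hδ,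
    hZ.eventually_lt_const (show (0 : ℝ) < ε / 3 by linarith), self_mem_nhdsWithin,
    FA.Supersingular.tendsto_univ_atTop.eventually_gt_atTop (3 * F.ncard / ε)]
    with s hsX hsZ hs hU
  have hU0 : 0 < (Set.univ : Set (HeightOneSpectrum (𝓞 ℚ))).primeIdealZetaSum s :=
    lt_of_le_of_lt (by positivity) hU
  have hsub : S \ (X ∪ Z) ⊆ F := fun v hv => (hSX hv.1).resolve_left hv.2
  have hle : S.primeIdealZetaSum s ≤
      X.primeIdealZetaSum s + Z.primeIdealZetaSum s + F.ncard :=
    (FA.Chebotarev.primeIdealZetaSum_le_add (hF.subset hsub) hs).trans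
      (add_le_add (primeIdealZetaSum_union_le X Z hs)
        (Nat.cast_le.mpr (Set.ncard_le_ncard hsub hF)))
  rw [div_lt_iff₀ hU0] at hsX hsZ ⊢
  rw [div_lt_iff₀ hε] at hU
  linarith

/-- A set of positive integers with divergent sum of reciprocals has finite subsets with large
sums beyond any bound. -/
theorem exists_finset_sum {P : Set ℕ}
    (hP : ¬ Summable (P.indicator fun n : ℕ => (1 : ℝ) / n)) (m : ℕ) (C : ℝ) :
    ∃ L : Finset ℕ, (∀ l ∈ L, l ∈ P ∧ m < l) ∧ C < ∑ l ∈ L, (1 : ℝ) / l := by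
  classical
  by_contra hc
  push Not at hc
  refine hP (summable_of_sum_le (c := C + ∑ n ∈ Finset.range (m + 1), (1 : ℝ) / n)
    (fun n => Set.indicator_nonneg (fun _ _ => by positivity) n) fun u => ?_)
  rw [← Finset.sum_filter_add_sum_filter_not u (fun n => n ∈ P ∧ m < n)]
  refine add_le_add ?_ ?_
  · refine le_trans (le_of_eq (Finset.sum_congr rfl fun n hn => ?_))
      (hc (u.filter fun n => n ∈ P ∧ m < n) fun l hl => (Finset.mem_filter.mp hl).2)
    rw [Set.indicator_of_mem (Finset.mem_filter.mp hn).2.1]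
  · rw [← Finset.sum_filter_add_sum_filter_not (u.filter fun n => ¬(n ∈ P ∧ m < n)) (· ∈ P),
      Finset.sum_eq_zero (fun n hn => Set.indicator_of_notMem (Finset.mem_filter.mp hn).2 _),
      add_zero]
    refine le_trans (le_of_eq (Finset.sum_congr rfl fun n hn => ?_))
      (Finset.sum_le_sum_of_subset_of_nonneg (fun n hn => ?_) fun _ _ _ => by positivity)
    · exact Set.indicator_of_mem (Finset.mem_filter.mp hn).2 _
    · obtain ⟨h1, h2⟩ := Finset.mem_filter.mp hn
      exact Finset.mem_range.mpr (Nat.lt_succ_of_le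
        (not_lt.mp fun h => (Finset.mem_filter.mp h1).2 ⟨h2, h⟩))

/-- Removing finitely many terms keeps the divergence. -/
theorem not_summable_diff {P : Set ℕ} (hP : ¬ Summable (P.indicator fun n : ℕ => (1 : ℝ) / n))
    (L : Finset ℕ) : ¬ Summable ((P \ L).indicator fun n : ℕ => (1 : ℝ) / n) := fun h =>
  hP ((L.summable_compl_iff).mp (((summable_subtype_iff_indicator).mpr
    ((h.congr fun n => by
      by_cases hn : n ∈ L
      · rw [Set.indicator_of_notMem (show n ∉ P \ L from fun h => h.2 hn),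
          Set.indicator_of_notMem (show n ∉ {x | x ∉ L} from fun h => h hn)]
      · rw [Set.indicator_of_mem (show n ∈ {x | x ∉ L} from hn)]
        by_cases hnP : n ∈ P
        · rw [Set.indicator_of_mem (show n ∈ P \ L from ⟨hnP, hn⟩), Set.indicator_of_mem hnP]
        · rw [Set.indicator_of_notMem (show n ∉ P \ L from fun h => hnP h.1),
            Set.indicator_of_notMem hnP]) :
      Summable ({x | x ∉ L}.indicator (P.indicator fun n : ℕ => (1 : ℝ) / n))))))

/-! ### The product of the general linear groups modulo several primes -/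

section product

variable (L : Finset ℕ)

/-- The product of the primes. -/
def level : ℕ := ∏ l : L, (l : ℕ)

theorem dvd_level (l : L) : (l : ℕ) ∣ level L := Finset.dvd_prod_of_mem _ (Finset.mem_univ l)

/-- Reduction of `GL₂(ℤ/N)` modulo each of the primes. -/
def toProd : GL (Fin 2) (ZMod (level L)) →* ∀ l : L, GL (Fin 2) (ZMod (l : ℕ)) :=
  MonoidHom.pi fun l => Matrix.GeneralLinearGroup.map (ZMod.castHom (dvd_level L l) _)

theorem toProd_surjective (hL : ∀ l ∈ L, l.Prime) : Function.Surjective (toProd L) := by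
  have hcop : Pairwise (Function.onFun Nat.Coprime fun l : L => (l : ℕ)) := fun i j hij =>
    (Nat.coprime_primes (hL i i.2) (hL j j.2)).mpr fun h => hij (Subtype.ext h)
  let e : ZMod (level L) ≃+* ∀ l : L, ZMod (l : ℕ) := ZMod.prodEquivPi _ hcop
  have he : ∀ (x : ZMod (level L)) (l : L), e x l = ZMod.castHom (dvd_level L l) _ x := fun x l =>
    ZMod.prodEquivPi_apply _ hcop x l
  intro g
  let M : Matrix (Fin 2) (Fin 2) (ZMod (level L)) := .of fun i j => e.symm fun l => (g l).1 i j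
  have hM : ∀ l : L, M.map (ZMod.castHom (dvd_level L l) (ZMod (l : ℕ))) = (g l).1 := fun l =>
    Matrix.ext fun i j => by
      rw [Matrix.map_apply, ← he]
      exact congrFun (e.apply_symm_apply _) l
  have hdet : IsUnit M.det := by
    rw [← isUnit_map_iff e, Pi.isUnit_iff]
    intro l
    rw [he, RingHom.map_det]
    refine (Matrix.isUnit_iff_isUnit_det _).mp ?_
    show IsUnit (M.map _)
    rw [hM]
    exact (g l).isUnit
  exact ⟨Matrix.GeneralLinearGroup.mk'' M hdet, funext fun l => Units.ext (hM l)⟩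

variable {W : WeierstrassCurve ℤ} [(ratCurve W).IsElliptic]

/-- The image modulo each of the primes at once. -/
def prodRep [NeZero (level L)] : GQ →* ∀ l : L, GL (Fin 2) (ZMod (l : ℕ)) :=
  (toProd L).comp (FA.TraceDist.glLevel W (level L))

theorem isOpen_ker_prodRep [NeZero (level L)] :
    IsOpen ((prodRep L (W := W)).ker : Set GQ) :=
  Subgroup.isOpen_mono (fun σ hσ => by
    rw [MonoidHom.mem_ker, prodRep, MonoidHom.comp_apply, MonoidHom.mem_ker.mp hσ, map_one])
    FA.TraceDist.isOpen_ker_glLevel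

theorem prodRep_frobenius [NeZero (level L)] {q : ℕ} (hq : q.Prime) (hqL : ¬ q ∣ level L)
    (hgood : W.IsGoodPrimeFor q) {A : ValuationSubring Qb} (hA : A.LiesOverPrime q) {σ : GQ}
    (hσ : A.IsFrobeniusAt σ q) (l : L) :
    ((prodRep L (W := W) σ l).1).trace = (W.apOfModel q : ZMod (l : ℕ)) ∧
      ((prodRep L (W := W) σ l).1).det = (q : ZMod (l : ℕ)) := by
  obtain ⟨ht, hd⟩ := FA.TraceDist.repLevel_frobenius (W := W) (N := level L) hq hqL hgood hA hσ
  refine ⟨?_, ?_⟩
  · rw [← map_intCast (ZMod.castHom (dvd_level L l) (ZMod (l : ℕ))), ← ht, trace_fin_two,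
      trace_fin_two, map_add]
    rfl
  · rw [← map_natCast (ZMod.castHom (dvd_level L l) (ZMod (l : ℕ))), ← hd, RingHom.map_det]
    rfl

/-- The share of the product avoiding sets of share at least `1 / l` in each factor. -/
theorem card_avoid_le (hL : ∀ l ∈ L, l.Prime) (B : ∀ l : L, Set (GL (Fin 2) (ZMod (l : ℕ))))
    (hB : ∀ l : L, Nat.card (GL (Fin 2) (ZMod (l : ℕ))) ≤ (l : ℕ) * Nat.card (B l)) :
    (Nat.card {g : ∀ l : L, GL (Fin 2) (ZMod (l : ℕ)) // ∀ l, g l ∉ B l} : ℝ) /
        Nat.card (∀ l : L, GL (Fin 2) (ZMod (l : ℕ))) ≤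
      Real.exp (-∑ l ∈ L, (1 : ℝ) / l) := by
  classical
  haveI : ∀ l : L, NeZero (l : ℕ) := fun l => ⟨(hL l l.2).ne_zero⟩
  rw [Nat.card_congr (Equiv.subtypePiEquivPi (p := fun (l : L) (x : GL (Fin 2) (ZMod (l : ℕ))) =>
    x ∉ B l)), Nat.card_pi, Nat.card_pi, Nat.cast_prod, Nat.cast_prod, ← Finset.prod_div_distrib,
    ← Finset.sum_coe_sort L, ← Finset.sum_neg_distrib, Real.exp_sum]
  refine Finset.prod_le_prod (fun l _ => by positivity) fun l _ => ?_
  refine le_trans ?_ (Real.add_one_le_exp _)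
  have hc : Nat.card (B l) + Nat.card {x // x ∉ B l} = Nat.card (GL (Fin 2) (ZMod (l : ℕ))) := by
    rw [← Nat.card_sum]
    exact Nat.card_congr (Equiv.Set.sumCompl (B l))
  have hG : (0 : ℝ) < Nat.card (GL (Fin 2) (ZMod (l : ℕ))) := by exact_mod_cast Nat.card_pos
  have hl : (0 : ℝ) < (l : ℕ) := by exact_mod_cast (hL l l.2).pos
  have hB' : (Nat.card (GL (Fin 2) (ZMod (l : ℕ))) : ℝ) ≤ (l : ℕ) * (Nat.card (B l) : ℝ) := by
    exact_mod_cast hB l
  rw [div_le_iff₀ hG, neg_add_eq_sub, sub_mul, one_mul, one_div_mul_eq_div, le_sub_iff_add_le]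
  have h' : (Nat.card (GL (Fin 2) (ZMod (l : ℕ))) : ℝ) / (l : ℕ) ≤ Nat.card (B l) := by
    rw [div_le_iff₀ hl]; linarith
  have hcR : (Nat.card (B l) : ℝ) + Nat.card {x // x ∉ B l} =
      Nat.card (GL (Fin 2) (ZMod (l : ℕ))) := by exact_mod_cast hc
  linarith

end product

/-! ### The theorem -/

/-- A subset of a set of density zero has density zero. -/
theorem density_zero_subset {S T : Set (HeightOneSpectrum (𝓞 ℚ))} (hST : S ⊆ T)
    (hT : T.HasDirichletDensity 0) : S.HasDirichletDensity 0 :=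
  FA.Supersingular.density_zero_of_approx fun _ hε =>
    ⟨T, ∅, 0, hT, hε, Set.finite_empty, fun _ hv => Or.inl (hST hv)⟩

/-- **Almost every prime meets a condition at `k` members of a divergent set**, if avoiding it at
all members of any finite set `L` has density at most `exp (- ∑ 1 / l)`. -/
theorem density_zero_lt_of_bound (D : ℕ → ℕ → Prop) (Q : Set ℕ)
    (hbound : ∀ L : Finset ℕ, (L : Set ℕ) ⊆ Q →
      ∃ (X F : Set (HeightOneSpectrum (𝓞 ℚ))) (δ : ℝ), X.HasDirichletDensity δ ∧
        δ ≤ Real.exp (-∑ l ∈ L, (1 : ℝ) / l) ∧ F.Finite ∧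
        {v | ∀ l ∈ L, ¬ D l (Ideal.absNorm v.asIdeal)} ⊆ X ∪ F) :
    ∀ (k : ℕ) (P : Set ℕ), P ⊆ Q →
      ¬ Summable (P.indicator fun n : ℕ => (1 : ℝ) / n) →
      {v : HeightOneSpectrum (𝓞 ℚ) | ¬ ∃ S : Finset ℕ, (S : Set ℕ) ⊆ P ∧ k ≤ S.card ∧
        ∀ l ∈ S, D l (Ideal.absNorm v.asIdeal)}.HasDirichletDensity 0 := by
  classical
  intro k
  induction k with
  | zero =>
    intro P _ _
    convert NumberField.Set.hasDirichletDensity_empty (K := ℚ)
    exact Set.eq_empty_of_forall_notMem fun v hv => hv ⟨∅, by simp, le_rfl, by simp⟩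
  | succ k ih =>
    intro P hP hdiv
    refine density_zero_of_approx_union fun ε hε => ?_
    obtain ⟨L, hL, hsum⟩ := exists_finset_sum hdiv 0 (-Real.log ε)
    obtain ⟨X, F, δ, hX, hδ, hF, hsub⟩ := hbound L fun l hl => hP (hL l hl).1
    refine ⟨X, _, F, δ, hX, hδ.trans_lt ?_,
      ih (P \ L) (Set.sdiff_subset.trans hP) (not_summable_diff hdiv L), hF, fun v hv => ?_⟩
    · rw [← Real.exp_log hε, Real.exp_lt_exp]
      linarith
    by_cases hvZ : ∃ S : Finset ℕ, (S : Set ℕ) ⊆ P \ L ∧ k ≤ S.card ∧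
        ∀ l ∈ S, D l (Ideal.absNorm v.asIdeal)
    · obtain ⟨S, hS, hcard, hSD⟩ := hvZ
      refine (hsub fun l hl hDl => hv ⟨insert l S, ?_, ?_, fun i hi => ?_⟩).elim
        (fun h => Or.inl (Or.inl h)) Or.inr
      · rw [Finset.coe_insert]
        exact Set.insert_subset (hL l hl).1 (hS.trans Set.sdiff_subset)
      · rw [Finset.card_insert_of_notMem fun h => (hS h).2 hl]
        omega
      · rcases Finset.mem_insert.mp hi with rfl | hi
        · exact hDl
        · exact hSD i hi
    · exact Or.inl (Or.inr hvZ)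

variable {W : WeierstrassCurve ℤ} [(ratCurve W).IsElliptic]

/-- **Almost every Frobenius meets the condition at `k` of the primes.** -/
theorem density_zero_lt (R : ∀ l : ℕ, ZMod l → ZMod l → Prop) (D : ℕ → ℕ → Prop) {m : ℕ}
    (hR : ∀ l : ℕ, l.Prime → Nat.card (GL (Fin 2) (ZMod l)) ≤
      l * Nat.card {g : GL (Fin 2) (ZMod l) // R l g.1.trace g.1.det})
    (hD : ∀ l q : ℕ, l.Prime → q.Prime → l ≠ q → W.IsGoodPrimeFor q →
      R l (W.apOfModel q : ZMod l) (q : ZMod l) → D l q)
    (hsurj : ∀ N : ℕ, N ≠ 0 → N.Coprime m →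
      ∀ φ : Submodule.torsionBy ℤ ((ratCurve W)⁄Qb).Point (N : ℤ) ≃+
        Submodule.torsionBy ℤ ((ratCurve W)⁄Qb).Point (N : ℤ),
      ∃ σ : GQ, ∀ x, σ • x.1 = (φ x).1)
    (hm : m ≠ 0) (k : ℕ) (P : Set ℕ) (hP : ∀ l ∈ P, l.Prime)
    (hdiv : ¬ Summable (P.indicator fun n : ℕ => (1 : ℝ) / n)) :
    {v : HeightOneSpectrum (𝓞 ℚ) | ¬ ∃ S : Finset ℕ, (S : Set ℕ) ⊆ P ∧ k ≤ S.card ∧
      ∀ l ∈ S, D l (Ideal.absNorm v.asIdeal)}.HasDirichletDensity 0 := by
  classical
  refine density_zero_subset ?_ (density_zero_lt_of_bound D {l | l.Prime ∧ m < l} (fun L hL => ?_) k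
    (P \ (Finset.range (m + 1) : Set ℕ)) (fun l hl => ⟨hP l hl.1, by
      have := hl.2
      simp only [Finset.coe_range, Set.mem_Iio, not_lt] at this
      omega⟩)
    (not_summable_diff hdiv _))
  · intro v hv ⟨S, hS, hk, hSD⟩
    exact hv ⟨S, hS.trans Set.sdiff_subset, hk, hSD⟩
  have hLp : ∀ l ∈ L, l.Prime := fun l hl => (hL hl).1
  haveI : NeZero (level L) :=
    ⟨Finset.prod_ne_zero_iff.mpr fun l _ => (hLp l l.2).ne_zero⟩
  haveI : ∀ l : L, NeZero (l : ℕ) := fun l => ⟨(hLp l l.2).ne_zero⟩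
  have hcop : (level L).Coprime m := Nat.Coprime.prod_left fun l _ =>
    (hLp l l.2).coprime_iff_not_dvd.mpr fun hd => by
      have := Nat.le_of_dvd (Nat.pos_of_ne_zero hm) hd
      have := (hL l.2).2
      omega
  haveI : Fintype (∀ l : L, GL (Fin 2) (ZMod (l : ℕ))) := Fintype.ofFinite _
  have hdens := FA.Chebotarev.hasDirichletDensity_frobSet (prodRep L (W := W))
    ((toProd_surjective L hLp).comp
      (FA.TraceDist.glLevel_surjective (hsurj (level L) (NeZero.ne _) hcop)))
    (isOpen_ker_prodRep L)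
    (X := {g : ∀ l : L, GL (Fin 2) (ZMod (l : ℕ)) |
      ∀ l : L, ¬ R (l : ℕ) (g l).1.trace (g l).1.det}) fun g hg x l => by
        rw [Pi.mul_apply, Pi.mul_apply, Pi.inv_apply, Units.val_mul, Units.val_mul,
          trace_units_conj, det_units_conj]
        exact hg l
  refine ⟨_, {v | Ideal.absNorm v.asIdeal ∈ L ∪ W.Δ.natAbs.primeFactors}, _, hdens, ?_,
    FA.Supersingular.finite_absNorm_mem _,
    fun v hv => or_iff_not_imp_right.mpr fun hvF A hA σ hσ l => ?_⟩
  · rw [← Nat.card_eq_fintype_card]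
    exact card_avoid_le L hLp (fun l => {g | R (l : ℕ) g.1.trace g.1.det})
      fun l => hR l (hLp l l.2)
  simp only [Set.mem_ofPred_eq, Finset.mem_union, not_or] at hvF
  set q := Ideal.absNorm v.asIdeal
  have hq : q.Prime := FA.Chebotarev.absNorm_prime v
  have hΔ : W.Δ ≠ 0 := fun h => (ratCurve W).isUnit_Δ.ne_zero (by simp [ratCurve, h])
  have hgood : W.IsGoodPrimeFor q := fun hd => hvF.2 (Nat.mem_primeFactors.mpr
    ⟨hq, Int.natCast_dvd.mp hd, Int.natAbs_ne_zero.mpr hΔ⟩)
  have hne : ∀ i : L, (i : ℕ) ≠ q := fun i e => hvF.1 (e ▸ i.2)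
  have hqL : ¬ q ∣ level L := fun hd => by
    obtain ⟨i, -, hi⟩ := (Prime.dvd_finsetProd_iff hq.prime _).mp hd
    exact hne i ((Nat.prime_dvd_prime_iff_eq hq (hLp i i.2)).mp hi).symm
  obtain ⟨ht, hd⟩ := prodRep_frobenius L hq hqL hgood hA hσ l
  rw [ht, hd]
  exact fun hRl => hv l l.2 (hD _ q (hLp l l.2) hq (hne l) hgood hRl)

end FA.PrimeDivisors

end
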