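import Fermat.Agent.PrimeDivisors.Product
import Fermat.Agent.TraceDistribution.Counts
import Mathlib.NumberTheory.SumPrimeReciprocals

/-!
# Frobenius values which are squares modulo many primes

When Galois induces every automorphism of `E[N]` for the `N` prime to some `m`, a function of
`(a_q, q)` which is a non-square modulo `l` on at least `l` pairs of residues is a square only on a
set of primes of density zero.
-/

set_option autoImplicit false
set_option linter.style.haveILetI false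
set_option linter.unusedSectionVars false

noncomputable section

open NumberField IsDedekindDomain Matrix WeierstrassCurve FA.Frob
open scoped WeierstrassCurve.Affine

local notation "Qb" => AlgebraicClosure ℚ
local notation "GQ" => AlgebraicClosure ℚ ≃ₐ[ℚ] AlgebraicClosure ℚ

namespace FA.PrimeDivisors

variable {l : ℕ} [hl : Fact l.Prime]

/-- A condition met at `l` pairs of trace and determinant has share at least `1 / l`. -/
theorem card_ge_of_pairs (R : ZMod l → ZMod l → Prop) (ι : ZMod l → ZMod l × ZMod l)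
    (hι : Function.Injective ι) (h : ∀ i, (ι i).2 ≠ 0 ∧ R (ι i).1 (ι i).2) :
    Nat.card (GL (Fin 2) (ZMod l)) ≤
      l * Nat.card {g : GL (Fin 2) (ZMod l) // R g.1.trace g.1.det} := by
  classical
  let F : (Σ i : ZMod l, {M : Matrix (Fin 2) (Fin 2) (ZMod l) //
      M.trace = (ι i).1 ∧ M.det = (ι i).2}) →
      {g : GL (Fin 2) (ZMod l) // R g.1.trace g.1.det} := fun s =>
    ⟨Matrix.GeneralLinearGroup.mkOfDetNeZero s.2.1 (by rw [s.2.2.2]; exact (h s.1).1), by
      show R s.2.1.trace s.2.1.det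
      rw [s.2.2.1, s.2.2.2]
      exact (h s.1).2⟩
  have hF : Function.Injective F := fun s s' e => by
    have e' : s.2.1 = s'.2.1 := congrArg (fun g => (g.1 : Matrix (Fin 2) (Fin 2) (ZMod l))) e
    refine Sigma.subtype_ext (hι (Prod.ext ?_ ?_)) e'
    · rw [← s.2.2.1, ← s'.2.2.1, e']
    · rw [← s.2.2.2, ← s'.2.2.2, e']
  have h1 := Nat.card_le_card_of_injective F hF
  rw [Nat.card_sigma] at h1
  have h2 : ∀ i : ZMod l, l ^ 2 - l ≤ Nat.card {M : Matrix (Fin 2) (Fin 2) (ZMod l) //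
      M.trace = (ι i).1 ∧ M.det = (ι i).2} := fun i => by
    have := FA.TraceDist.card_trace_det (ι i).1 (ι i).2
    rw [ZMod.card] at this
    omega
  have h3 := (Finset.card_nsmul_le_sum Finset.univ _ _ fun i _ => h2 i).trans h1
  rw [Finset.card_univ, ZMod.card, smul_eq_mul] at h3
  rw [FA.TraceDist.card_gl2, ZMod.card]
  calc (l ^ 2 - 1) * (l ^ 2 - l) ≤ l ^ 2 * (l ^ 2 - l) :=
        Nat.mul_le_mul_right _ (Nat.sub_le _ _)
    _ = l * (l * (l ^ 2 - l)) := by ring
    _ ≤ _ := Nat.mul_le_mul_left _ h3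

/-- For `l ≥ 5` some non-square avoids a given residue. -/
theorem exists_nonsquare_ne (h5 : 5 ≤ l) (x : ZMod l) : ∃ n : ZMod l, ¬ IsSquare n ∧ n ≠ x := by
  obtain ⟨n, hn⟩ := FiniteField.exists_nonsquare (F := ZMod l)
    (by rw [ZMod.ringChar_zmod_n]; omega)
  by_cases h : n = x
  · have h2 : ((2 : ℕ) : ZMod l) ≠ 0 := fun e => by
      have := Nat.le_of_dvd two_pos ((ZMod.natCast_eq_zero_iff 2 l).mp e); omega
    have h3 : ((3 : ℕ) : ZMod l) ≠ 0 := fun e => by
      have := Nat.le_of_dvd (by norm_num) ((ZMod.natCast_eq_zero_iff 3 l).mp e); omega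
    push_cast at h2 h3
    refine ⟨2 * 2 * n, fun ⟨r, hr⟩ => hn ⟨r / 2, ?_⟩, fun e => hn ⟨0, ?_⟩⟩
    · field_simp
      linear_combination hr
    · rw [mul_zero]
      exact (mul_eq_zero.mp
        (show (3 : ZMod l) * n = 0 by linear_combination e - h)).resolve_left h3
  · exact ⟨n, hn, h⟩

variable {W : WeierstrassCurve ℤ} [(ratCurve W).IsElliptic]

/-- **Square values have density zero.** -/
theorem density_zero_square (f : ℤ → ℤ → ℤ) (R : ∀ l : ℕ, ZMod l → ZMod l → Prop) (B : ℕ)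
    (hpairs : ∀ l : ℕ, ∀ [Fact l.Prime], B < l → ∃ ι : ZMod l → ZMod l × ZMod l,
      Function.Injective ι ∧ ∀ i, (ι i).2 ≠ 0 ∧ R l (ι i).1 (ι i).2)
    (hRf : ∀ (l : ℕ) (a b : ℤ), R l (a : ZMod l) (b : ZMod l) → ¬ IsSquare (f a b : ZMod l))
    {m : ℕ} (hm : m ≠ 0)
    (hsurj : ∀ N : ℕ, N ≠ 0 → N.Coprime m →
      ∀ φ : Submodule.torsionBy ℤ ((ratCurve W)⁄Qb).Point (N : ℤ) ≃+
        Submodule.torsionBy ℤ ((ratCurve W)⁄Qb).Point (N : ℤ),
      ∃ σ : GQ, ∀ x, σ • x.1 = (φ x).1) :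
    {v : HeightOneSpectrum (𝓞 ℚ) | IsSquare
      (f (W.apOfModel (Ideal.absNorm v.asIdeal))
        (Ideal.absNorm v.asIdeal : ℤ))}.HasDirichletDensity 0 := by
  refine density_zero_subset ?_ (density_zero_lt (W := W) (fun l t d => l ≤ B ∨ R l t d)
    (fun l q => l ≤ B ∨ ¬ IsSquare ((f (W.apOfModel q) (q : ℤ) : ℤ) : ZMod l))
    (fun l hl => ?_) (fun l q _ _ _ _ hR => hR.imp id fun h => hRf l _ _ (by simpa using h))
    hsurj hm 1 {l | l.Prime ∧ B < l} (fun _ hl => hl.1) ?_)
  · rintro v hv ⟨S, hS, hk, hD⟩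
    obtain ⟨l, hlS⟩ := Finset.card_pos.mp hk
    rcases hD l hlS with h | h
    · exact absurd (hS hlS).2 (not_lt.mpr h)
    · exact h (IsSquare.map (Int.castRingHom (ZMod l)) hv)
  · haveI := Fact.mk hl
    by_cases hB : l ≤ B
    · rw [Nat.card_congr (Equiv.subtypeUnivEquiv fun _ => Or.inl hB)]
      exact Nat.le_mul_of_pos_left _ hl.pos
    · obtain ⟨ι, hι, h⟩ := hpairs l (by omega)
      exact card_ge_of_pairs (fun t d => l ≤ B ∨ R l t d) ι hι
        fun i => ⟨(h i).1, Or.inr (h i).2⟩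
  · have hP : ¬ Summable ({p : ℕ | p.Prime}.indicator fun n : ℕ => (1 : ℝ) / n) :=
      not_summable_one_div_on_primes
    have he : ({p : ℕ | p.Prime} \ (Finset.range (B + 1) : Set ℕ)) = {l | l.Prime ∧ B < l} := by
      ext n
      simp only [Set.mem_sdiff, Finset.coe_range, Set.mem_Iio, Set.mem_ofPred_eq]
      exact and_congr_right fun _ => by omega
    exact he ▸ not_summable_diff hP (Finset.range (B + 1))

end FA.PrimeDivisors

end
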